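import Fermat.Agent.Semistable.GenusHyp.Descent
import Fermat.Agent.LevelP.X0.Main

/-!
# Two-component data of `X₀(Mp)` from a genus bound at level `M`
-/

set_option autoImplicit false
set_option linter.style.haveILetI false
set_option linter.unusedSectionVars false
set_option synthInstance.maxHeartbeats 400000
set_option maxSynthPendingDepth 3
set_option maxHeartbeats 1000000

noncomputable section

namespace Fermat.Agent.Semistable.GenusHyp

open AlgebraicCurve ModularCurve IsLocalRing Polynomial Fermat.Agent.Modular Fermat.Agent.BadPrime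
  Fermat.Agent.Curve Fermat.Agent.LevelP Fermat.Agent.LevelP.X0

local notation "Qb" => AlgebraicClosure ℚ
local notation "Γℚ" => (AlgebraicClosure ℚ ≃ₐ[ℚ] AlgebraicClosure ℚ)

local instance : Algebra.IsAlgebraic ℚ Qb := AlgebraicClosure.isAlgebraic ℚ

variable (A : ValuationSubring Qb) (p M : ℕ) [Fact p.Prime] [NeZero M]
  [IsAlgClosed (ResidueField A)] (hpM : ¬ p ∣ M) (hA : A.LiesOverPrime p)

local notation "F" => modularFunctionFieldBar (M * p)
local notation "Fb" => modularFunctionFieldFullC (ResidueField A) M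

include hpM hA in
/-- Regular series over `𝔽_p` lift to regular series over `ℚ`. -/
theorem exists_rational_liftG [Algebra (ZMod p) (ResidueField A)] (hg : GenusBound p M) (c : Bool)
    {y : LaurentSeries (ZMod p)} (hy : y ∈ modularFunctionFieldFullC (ZMod p) M)
    (hreg : IsRegularOver (chartCoordRed (ZMod p) c) y) :
    ∃ x : modularFunctionFieldBar M,
      (∀ σ : Γℚ, coeffMap (σ : Qb →+* Qb) (x : LaurentSeries Qb) = (x : LaurentSeries Qb)) ∧
      IsRegularOver (chartCoordRed Qb c) (x : LaurentSeries Qb) ∧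
      HasGaussRed (residue A) (x : LaurentSeries Qb)
        (coeffMap (algebraMap (ZMod p) (ResidueField A)) y) := by
  obtain ⟨AL, hAL, π, κ, hloc, hsurj, hκ⟩ := exists_primeReduction A p hA
  haveI := hloc
  have hlift := exists_regular_lift_of_liftG (L := ℚ) M hpM A hA
    hg hAL κ hκ hsurj hy
  obtain ⟨x, hx, hxr, hxy⟩ : ∃ x ∈ FL M ℚ, IsRegularOver (chartCoordRed ℚ c) x ∧
      HasGaussRed π x y := by
    cases c
    · exact hlift.1 hreg
    · exact hlift.2 hreg
  have hmem : coeffMap (algebraMap ℚ Qb) x ∈ modularFunctionFieldBar M :=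
    (Reduction.fullC_le_base (L := Qb) M).le
      (coeffMap_mem_fullC M (algebraMap ℚ Qb) ((Reduction.fullC_le_base (L := ℚ) M).ge hx))
  refine ⟨⟨_, hmem⟩, fun σ => ?_, ?_, ?_⟩
  · show coeffMap _ (coeffMap _ x) = coeffMap _ x
    rw [coeffMap_coeffMap]
    exact coeffMap_congr (RingHom.ext_rat _ _) _
  · have := hxr.map (algebraMap ℚ Qb)
    rwa [coeffMap_chartCoordRed] at this
  · have h := HasGaussRed.map_coeff (π := residue A) (ι := algebraMap ℚ Qb) (κ := κ) hAL hκ hxy
    rwa [show κ = algebraMap (ZMod p) (ResidueField A) from RingHom.ext_zmod _ _] at h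


include hpM hA in
/-- The two lifts of a regular function over `𝔽_p`. -/
theorem exists_twisted_liftG [Algebra (ZMod p) (ResidueField A)] (hg : GenusBound p M) (c : Bool) {a : Fb}
    (ha : (a : LaurentSeries (ResidueField A)) ∈ primeRegular (q := p) M c) (j : Bool) :
    ∃ f : F, (∀ σ ∈ A.inertiaSubgroupIn ℚ, act p M σ • f = f) ∧
      (∀ P : Place Qb F, coord c (jBarMp p M) ∈ P.toValuationSubring →
        f ∈ P.toValuationSubring) ∧
      ∀ i, ∃ h : f ∈ V A p M i,
        red A p M hpM hA i ⟨f, h⟩ = if i = j then a else a ^ p := by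
  haveI := EC.charP_residueField A (Fact.out : p.Prime) hA
  obtain ⟨y, hy, hreg, hya⟩ := ha
  obtain ⟨x, hxfix, hxreg, hxa⟩ := exists_rational_liftG A p M hpM hA hg c hy hreg
  rw [hya] at hxa
  have hpow : qExpand (ResidueField A) p (a : LaurentSeries (ResidueField A)) =
      ((a ^ p : Fb) : LaurentSeries (ResidueField A)) := by
    rw [IntermediateField.coe_pow, ← hya]
    exact qExpand_eq_pow_of_prime y
  obtain ⟨resA, resB⟩ := red_pullbacks A p M hpM hA hxa hpow
  cases j
  · exact ⟨_, fun σ _ => act_smul_alpha p M (hxfix σ),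
      fun P hP => alpha_mem_of_regular p M hxreg hP, resA⟩
  cases c
  · refine ⟨_, fun σ _ => act_smul_beta p M (hxfix σ),
      fun P hP => beta_mem_of_regular p M hxreg ?_, resB⟩
    rw [coord_false] at hP ⊢
    exact jBetaMp_mem p M hP
  -- on the chart at infinity the poles are cleared by a power of `s`
  obtain ⟨s, hsfix, hsres, hsreg, hspole⟩ := exists_clearing A p M hpM hA
  obtain ⟨N, hN⟩ := exists_pow_clear p M
    (U := fun P => (jBarMp p M)⁻¹ ∈ P.toValuationSubring)
    (W := fun P => (jBetaMp p M)⁻¹ ∈ P.toValuationSubring)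
    (ne_zero_of_res_eq_one (red A p M hpM hA false) (hsres false)) hsreg hspole
    (f := heckeBetaBar Qb M p x) (fun P hP => beta_mem_of_regular p M hxreg (by
      rw [coord_true]; exact hP))
  refine ⟨s ^ N * heckeBetaBar Qb M p x,
    fun σ _ => by rw [smul_mul', smul_pow', hsfix, act_smul_beta p M (hxfix σ)],
    fun P hP => hN P (by rw [coord_true] at hP; exact hP),
    fun i => exists_res_pow_mul (red A p M hpM hA i) (hsres i) (resB i) N⟩


include hpM hA in
set_option maxHeartbeats 800000 in
/-- Generators of the affine rings with their lifts. -/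
theorem exists_gens_X0G [IsFunctionField1 (ResidueField A) Fb] (hg : GenusBound p M) (c : Bool) :
    ∃ G : Finset Fb, coord c (jResM A M) ∈ G ∧
    (∀ a ∈ G, ∀ Q : Place (ResidueField A) Fb, coord c (jResM A M) ∈ Q.toValuationSubring →
      a ∈ Q.toValuationSubring) ∧
    (∀ g : Fb, (∀ Q : Place (ResidueField A) Fb, coord c (jResM A M) ∈ Q.toValuationSubring →
      g ∈ Q.toValuationSubring) → g ∈ Algebra.adjoin (ResidueField A) (G : Set Fb)) ∧
    ∀ a ∈ G, ∀ j : Bool, ∃ f : F, (∀ σ ∈ A.inertiaSubgroupIn ℚ, act p M σ • f = f) ∧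
      (∀ P : Place Qb F, coord c (jBarMp p M) ∈ P.toValuationSubring →
        f ∈ P.toValuationSubring) ∧
      ∀ i, ∃ h : f ∈ V A p M i,
        red A p M hpM hA i ⟨f, h⟩ = if i = j then a else a ^ p := by
  classical
  haveI := EC.charP_residueField A (Fact.out : p.Prime) hA
  letI : Algebra (ZMod p) (ResidueField A) := ZMod.algebra _ p
  have hk : Algebra.IsAlgebraic (ZMod p) (ResidueField A) := ⟨fun x => by
    obtain ⟨m, hm, hx⟩ := EC.exists_pow_q_pow_eq_self A (Fact.out : p.Prime) hA x
    exact ⟨X ^ p ^ m - X,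
      FiniteField.X_pow_card_pow_sub_X_ne_zero _ hm.ne' (Fact.out : p.Prime).one_lt, by simp [hx]⟩⟩
  set τ : Fb := coord c (jResM A M) with hτ
  have hτK : (τ : LaurentSeries (ResidueField A)) = chartCoordRed (ResidueField A) c :=
    coe_coord_jResM A M c
  have hreg_iff : ∀ g : Fb,
      IsRegularOver (chartCoordRed (ResidueField A) c) (g : LaurentSeries (ResidueField A)) ↔
        ∀ Q : Place (ResidueField A) Fb, τ ∈ Q.toValuationSubring →
          g ∈ Q.toValuationSubring := fun g => by
    rw [← hτK, isRegularOver_iff_forall_place]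
    simp only [mem_iff_ord_nonneg]
  set R : Set Fb := {a | (a : LaurentSeries (ResidueField A)) ∈ primeRegular (q := p) M c} with hR
  have hτR : τ ∈ R :=
    ⟨chartCoordRed (ZMod p) c, by
      cases c
      · exact jqModC_mem_full _ M
      · exact inv_mem (jqModC_mem_full _ M),
      by simpa using IsRegularOver.evalAt_self (chartCoordRed (ZMod p) c) X,
      by rw [coeffMap_chartCoordRed, hτK]⟩
  have hint : ∀ g : Fb, IsIntegral (Algebra.adjoin (ResidueField A) ({τ} : Set Fb)) g ↔
      ∀ Q : Place (ResidueField A) Fb, τ ∈ Q.toValuationSubring → g ∈ Q.toValuationSubring :=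
    fun g => by rw [← isRegularOver_iff_isIntegral_adjoin, hτK, hreg_iff]
  have hspan : ∀ g : Fb, IsIntegral (Algebra.adjoin (ResidueField A) ({τ} : Set Fb)) g →
      g ∈ Submodule.span (ResidueField A) R := fun g hg => by
    obtain ⟨n, d, z, hz, hgz⟩ :=
      exists_combination_primeRegular M hk g.2 ((hreg_iff g).2 ((hint g).1 hg))
    choose y hy hyr hyz using hz
    have hzF : ∀ i, z i ∈ modularFunctionFieldFullC (ResidueField A) M := fun i =>
      hyz i ▸ coeffMap_mem_fullC M _ (hy i)
    have he : g = ∑ i, algebraMap (ResidueField A) Fb (d i) * (⟨z i, hzF i⟩ : Fb) := by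
      apply (IntermediateField.val Fb).toRingHom.injective
      rw [map_sum]
      refine hgz.trans (Finset.sum_congr rfl fun i _ => ?_)
      rw [map_mul]
      show HahnSeries.C (d i) * z i =
        algebraMap (ResidueField A) (LaurentSeries (ResidueField A)) (d i) * z i
      rw [algebraMap_laurentSeries_eq_single, HahnSeries.C_apply]
    rw [he]
    refine Submodule.sum_mem _ fun i _ => ?_
    rw [← Algebra.smul_def]
    exact Submodule.smul_mem _ _ (Submodule.subset_span ⟨y i, hy i, hyr i, hyz i⟩)
  have hcoordK : chartCoordK (ResidueField A) M c = τ := Subtype.ext (by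
    rw [coe_chartCoordK, hτK])
  have hfin := finite_integralClosure_chartCoordK (ResidueField A) M c
  rw [hcoordK] at hfin
  obtain ⟨T, hTR, hT⟩ := exists_finset_generators τ R hfin hspan
  have hmemR : ∀ a ∈ insert τ T, a ∈ R := fun a ha => by
    rcases Finset.mem_insert.1 ha with rfl | h
    · exact hτR
    · exact hTR h
  refine ⟨insert τ T, Finset.mem_insert_self _ _, fun a ha => ?_, fun g hg => ?_,
    fun a ha => exists_twisted_liftG A p M hpM hA hg c (hmemR a ha)⟩
  · obtain ⟨y, -, hyr, hya⟩ := hmemR a ha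
    have := hyr.map (algebraMap (ZMod p) (ResidueField A))
    rw [coeffMap_chartCoordRed, hya] at this
    exact (hreg_iff a).1 this
  · rw [Finset.coe_insert]
    exact hT g ((hint g).2 hg)

/-- The inputs for the charts of `X₀(Mp)`. -/
def chartInputsG (hg : GenusBound p M) (hpM : ¬ p ∣ M) (hA : A.LiesOverPrime p) :
    ChartInputs p A F Fb where
  act := act p M
  baseAut_act := baseAut_act_X0 p M
  exists_fixing := exists_fixing p M
  V := V A p M
  algebraMap_mem_iff := algebraMap_mem_V_iff A p M
  act_mem_iff := fun i _ hσ f => act_mem_iff A p M hpM i hσ f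
  red := red A p M hpM hA
  red_algebraMap := red_algebraMap A p M hpM hA
  red_eq_zero_iff := red_eq_zero_iff A p M hpM hA
  red_act := fun i _ hσ f h => red_act A p M hpM hA i hσ f h
  exists_scale := exists_scale_X0 A p M hpM
  exists_const := exists_const_X0 A p hA
  t := jBarMp p M
  t_fixed := act_jBarMp p M
  tb := jResM A M
  transcendental_tb := transcendental_jResM A M
  isSeparable_tb := isSeparable_jResM A p M hpM hA
  red_t := red_jBarMp A p M hpM hA
  mem_chartRing := fun c x hV hreg => mem_chartRing_X0 hpM hA c x hV hreg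
  exists_gens := by
    haveI := isFunctionField1_fullC_X0 A M
    exact exists_gens_X0G A p M hpM hA hg
  exists_cusp := exists_cusp_function A p M hpM hA
  w := unitW p M
  w_fixed := fun σ _ => unitW_fixed p M σ
  w_false := unitW_false A p M
  w_true := unitW_true A p M hpM hA
  ord_w := ord_unitW p M
  ord_red_w := fun h Q hQ => ord_red_unitW' A p M hpM hA h Q hQ
  exists_zero_red_w := fun h => exists_zero_red_unitW' A p M hpM hA h
  exists_spanning := exists_spanning_X0

/-- The two-component data of `X₀(Mp)`. -/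
def twoCompDataG (hg : GenusBound p M) (hpM : ¬ p ∣ M) (hA : A.LiesOverPrime p) :
    TwoCompData p A F Fb :=
  haveI : IsFunctionField1 Qb F := isFunctionField1_mul_prime p M
  haveI : IsFunctionField1 (ResidueField A) Fb := isFunctionField1_fullC_X0 A M
  ChartInputs.toTwoCompData (chartInputsG A p M hg hpM hA) hA
    (exists_lift A p M hpM hA)
    (fun i _ hH _ hf hfix => exists_scale A p M hpM i hH hf hfix)
    (fun _ _ D hD hp => descend_principal p M D hD hp)
    (fun _ _ D hdeg hD => descend_class p M D hdeg hD)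
    (swap p M) (swap_act p M) (swap_mem_iff A p M) (red_swap A p M hpM hA)

/-- The nodes are the zeros of the residue of `w` at finite `j̄`. -/
theorem twoCompData_nodeG (hg : GenusBound p M) (hpM : ¬ p ∣ M) (hA : A.LiesOverPrime p)
    (y : (twoCompDataG A p M hg hpM hA).Pt) (hy : (twoCompDataG A p M hg hpM hA).On y false) :
    ((twoCompDataG A p M hg hpM hA).IsNode y →
      0 ≤ ((twoCompDataG A p M hg hpM hA).loc y false).ord (jResM A M)) ∧
    (¬ (twoCompDataG A p M hg hpM hA).IsNode y →
      0 ≤ ((twoCompDataG A p M hg hpM hA).loc y false).ord (jResM A M) →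
        ((twoCompDataG A p M hg hpM hA).loc y false).ord
          ((twoCompDataG A p M hg hpM hA).residueAt false
            (twoCompDataG A p M hg hpM hA).w) = 0) := by
  haveI : IsFunctionField1 Qb F := isFunctionField1_mul_prime p M
  haveI : IsFunctionField1 (ResidueField A) Fb := isFunctionField1_fullC_X0 A M
  refine ⟨fun hn => ord_nonneg_of_mem _
    (ChartInputs.ord_red_w_of_ptNode (D := chartInputsG A p M hg hpM hA) hA hn).1,
    fun hn hj => ?_⟩
  rw [TwoCompData.residueAt_of_mem _
    ((twoCompDataG A p M hg hpM hA).V false |>.valuation_le_one_iff _ |>.1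
      (twoCompDataG A p M hg hpM hA).w_false.le)]
  exact ChartInputs.ord_red_w_of_not_ptNode (D := chartInputsG A p M hg hpM hA) hA hy hn
    (mem_of_ord_nonneg _ hj)

/-- **Existence of the two-component data**, for every prime (`3 ∣ M` at `2`, `2 ∣ M` at `3`). -/
theorem exists_twoCompDataG (hg : GenusBound p M) (hpM : ¬ p ∣ M) (hA : A.LiesOverPrime p) :
    ∃ T : TwoCompData p A F Fb, T.act = act p M ∧ T.swap = swap p M ∧
      (∀ (f : F) (g : Fb), (∃ h : f ∈ T.V false, T.red false ⟨f, h⟩ = g) ↔
        HasGaussRed (residue A) (f : LaurentSeries Qb) (g : LaurentSeries (ResidueField A))) ∧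
      (T.w : LaurentSeries Qb) = coeffEmb Qb (modularUnitSeries p) ∧
      (∀ y, T.On y false →
        (T.IsNode y → 0 ≤ (T.loc y false).ord (jResM A M)) ∧
        (¬ T.IsNode y → 0 ≤ (T.loc y false).ord (jResM A M) →
          (T.loc y false).ord (T.residueAt false T.w) = 0)) ∧
      (T.w : LaurentSeries Qb) = (wSeries p Qb : LaurentSeries Qb) := by
  refine ⟨twoCompDataG A p M hg hpM hA, rfl, rfl, fun f g => ⟨?_, fun h => ?_⟩, rfl,
    twoCompData_nodeG A p M hg hpM hA, coe_unitW p M⟩
  · rintro ⟨h, rfl⟩
    exact hasGaussRed_red A p M hpM hA false ⟨f, h⟩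
  · exact hasRed_of_hasGaussRed A p M hpM hA (i := false) h

end Fermat.Agent.Semistable.GenusHyp
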