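import Fermat.Agent.BadPrime.ChartOnto
import Fermat.Agent.Reduction.AuxLevel

/-!
# Regular lifts from a genus bound

Variants of `BadPrime/RegularDescent` and `BadPrime/ChartOnto` with the inequality of genera as
hypothesis, instead of the divisibilities at `2` and `3` from which it was deduced.
-/

set_option autoImplicit false
set_option linter.style.haveILetI false
set_option linter.unusedSectionVars false
set_option synthInstance.maxHeartbeats 400000
set_option maxSynthPendingDepth 3
set_option maxHeartbeats 1000000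

noncomputable section

open ModularCurve Polynomial AlgebraicCurve
open scoped IntermediateField

namespace Fermat.Agent.Semistable.GenusHyp

open Fermat.Agent.Reduction Fermat.Agent.Modular Fermat.Agent.Curve Fermat.Agent.BadPrime

/-- The genus of `X₀(M)` does not drop on reduction at the places over `q`. -/
def GenusBound (q M : ℕ) [NeZero M] : Prop :=
  ∀ A : ValuationSubring (AlgebraicClosure ℚ), A.LiesOverPrime q →
    genusFF (AlgebraicClosure ℚ) (modularFunctionFieldBar M) ≤
      genusFF (IsLocalRing.ResidueField A)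
        (modularFunctionFieldFullC (IsLocalRing.ResidueField A) M)

/-- The genus bound from the bound on the different. -/
theorem genusBound_of_differentBound {q M : ℕ} [Fact q.Prime] [NeZero M] (hqM : ¬ q ∣ M)
    (h : ∀ A : ValuationSubring (AlgebraicClosure ℚ), A.LiesOverPrime q →
      DifferentBound (k := IsLocalRing.ResidueField A) (jRes (IsLocalRing.ResidueField A) M)) :
    GenusBound q M := by
  intro A hA
  have : IsAlgClosed (IsLocalRing.ResidueField A) := EC.isAlgClosed_residueField A
  exact (gaussDataX0 M hqM A hA).genusFF_le_of_ramification (j := jBar M)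
    (jb := jRes (IsLocalRing.ResidueField A) M) (jBar_jRes_mem M A)
    (transcendental_jRes M _) (finrank_jRes M hqM A hA) (isSeparable_jRes M hqM A hA)
    (jBar_ord_le_three M) (jBar_ord_le_two M)
    (fun _ h0 h1 => jBar_ord_eq_one M h0 h1) (h A hA)

section X0

variable (N : ℕ) [NeZero N] {ℓ : ℕ} [Fact ℓ.Prime] (hℓN : ¬ ℓ ∣ N)
  (A : ValuationSubring (AlgebraicClosure ℚ)) (hA : A.LiesOverPrime ℓ)

include hℓN hA

/-- A lift over `ℚ̄` of an element regular over a chart. -/
theorem exists_regular_lift_barG (hbound : GenusBound ℓ N)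
    {w : LaurentSeries (IsLocalRing.ResidueField A)}
    (hw : w ∈ modularFunctionFieldFullC (IsLocalRing.ResidueField A) N) :
    (IsRegularOver (jqModC (IsLocalRing.ResidueField A)) w →
      ∃ x ∈ FL N (AlgebraicClosure ℚ), IsRegularOver (jqModC (AlgebraicClosure ℚ)) x ∧
        HasGaussRed (IsLocalRing.residue A) x w) ∧
    (IsRegularOver (jqModC (IsLocalRing.ResidueField A))⁻¹ w →
      ∃ x ∈ FL N (AlgebraicClosure ℚ), IsRegularOver (jqModC (AlgebraicClosure ℚ))⁻¹ x ∧
        HasGaussRed (IsLocalRing.residue A) x w) := by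
  haveI : IsAlgClosed (IsLocalRing.ResidueField A) := EC.isAlgClosed_residueField A
  have hg := hbound A hA
  have hn := finrank_jRes N hℓN A hA
  have htr := transcendental_jRes N (IsLocalRing.ResidueField A)
  have hjB : ((jBar N : modularFunctionFieldBar N) : LaurentSeries (AlgebraicClosure ℚ)) =
      jqModC (AlgebraicClosure ℚ) := by
    show coeffEmb (AlgebraicClosure ℚ) jq = _
    rw [coeffEmb, ← jqModC_rat, coeffMap_jqModC]
  refine ⟨fun hreg => ?_, fun hreg => ?_⟩
  · obtain ⟨x, hx, hxw⟩ := exists_lift_regular (gaussDataX0 N hℓN A hA) hg (jBar_jRes_mem N A)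
      htr hn (w := ⟨w, hw⟩) ((isRegularOver_iff_forall_place (jRes _ N) ⟨w, hw⟩).1 hreg)
    exact ⟨x, x.2, hjB ▸ (isRegularOver_iff_forall_place (jBar N) x).2 hx, hxw⟩
  · obtain ⟨x, hx, hxw⟩ := exists_lift_regular_inv (gaussDataX0 N hℓN A hA) hg (jBar_jRes_mem N A)
      htr hn (w := ⟨w, hw⟩) fun Q hQ => by
        refine (isRegularOver_iff_forall_place ((jRes _ N)⁻¹) ⟨w, hw⟩).1 ?_ Q ?_
        · rw [IntermediateField.coe_inv]; exact hreg
        · rw [Place.ord_inv]; omega
    refine ⟨x, x.2, ?_, hxw⟩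
    have h := (isRegularOver_iff_forall_place ((jBar N)⁻¹) x).2 fun P hP => hx P (by
      rw [Place.ord_inv] at hP; omega)
    rw [IntermediateField.coe_inv, hjB] at h
    exact h

omit hℓN hA

variable {L : Type} [Field L] [Algebra ℚ L] [FiniteDimensional ℚ L] [Algebra L (AlgebraicClosure ℚ)]
  [IsScalarTower ℚ L (AlgebraicClosure ℚ)] {AL : ValuationSubring L} {k : Type} [Field k]
  {πL : AL →+* k} [IsLocalHom πL]

include hℓN hA in
/-- Reduction of a regular chart over a number field onto the normalisation of the reduced one. -/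
theorem exists_regular_lift_of_liftG (hbound : GenusBound ℓ N)
    (hAL : ∀ a, a ∈ AL → algebraMap L (AlgebraicClosure ℚ) a ∈ A)
    (κ : k →+* IsLocalRing.ResidueField A)
    (hκ : ∀ a : AL, IsLocalRing.residue A ⟨algebraMap L _ a, hAL a a.2⟩ = κ (πL a))
    (hπL : Function.Surjective πL) {b : LaurentSeries k}
    (hb : b ∈ modularFunctionFieldFullC k N) :
    (IsRegularOver (jqModC k) b →
      ∃ x ∈ FL N L, IsRegularOver (jqModC L) x ∧ HasGaussRed πL x b) ∧
    (IsRegularOver (jqModC k)⁻¹ b →
      ∃ x ∈ FL N L, IsRegularOver (jqModC L)⁻¹ x ∧ HasGaussRed πL x b) := by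
  haveI : Algebra.IsAlgebraic ℚ (AlgebraicClosure ℚ) := AlgebraicClosure.isAlgebraic ℚ
  haveI : IsAlgClosure ℚ (AlgebraicClosure ℚ) := ⟨inferInstance, inferInstance⟩
  haveI : Normal ℚ (AlgebraicClosure ℚ) := IsAlgClosure.normal ℚ _
  haveI : Normal L (AlgebraicClosure ℚ) := Normal.tower_top_of_normal ℚ L (AlgebraicClosure ℚ)
  haveI : Algebra.IsAlgebraic ℚ L := Algebra.IsAlgebraic.of_finite ℚ L
  have hbar := exists_regular_lift_barG N hℓN A hA hbound (coeffMap_mem_fullC N κ hb)
  have step : ∀ (t : LaurentSeries L) (x : LaurentSeries (AlgebraicClosure ℚ)),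
      x ∈ FL N (AlgebraicClosure ℚ) →
      IsRegularOver (coeffMap (algebraMap L (AlgebraicClosure ℚ)) t) x →
      HasGaussRed (IsLocalRing.residue A) x (coeffMap κ b) →
      ∃ y ∈ FL N L, IsRegularOver t y ∧ HasGaussRed πL y b := by
    intro t x hx hreg hxb
    obtain ⟨n, d, y, hxy, hy⟩ := exists_regular_combination N hx hreg
    obtain ⟨c, hc⟩ := exists_combination_hasGaussRed hAL hκ hπL y (fun i => (hy i).1) d
      (hxy ▸ hxb)
    refine ⟨_, ?_, ?_, hc⟩
    · refine sum_mem fun i _ => mul_mem ?_ (hy i).1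
      rw [Reduction.C_eq_algebraMap]
      exact IntermediateField.algebraMap_mem _ _
    · exact IsRegularOver.sum _ fun i _ => (IsRegularOver.const t (c i)).mul (hy i).2
  refine ⟨fun hreg => ?_, fun hreg => ?_⟩
  · have h := hreg.map κ
    rw [coeffMap_jqModC] at h
    obtain ⟨x, hx, hxr, hxb⟩ := hbar.1 h
    exact step (jqModC L) x hx (by rw [coeffMap_jqModC]; exact hxr) hxb
  · have h := hreg.map κ
    rw [map_inv₀, coeffMap_jqModC] at h
    obtain ⟨x, hx, hxr, hxb⟩ := hbar.2 h
    exact step (jqModC L)⁻¹ x hx (by rw [map_inv₀, coeffMap_jqModC]; exact hxr) hxb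

end X0

section X0Charts


variable {ℓ : ℕ} [Fact ℓ.Prime] (N : ℕ) [NeZero N] (hℓN : ¬ ℓ ∣ N)
  (B : ValuationSubring (AlgebraicClosure ℚ)) (hB : B.LiesOverPrime ℓ)
  {L₀ : Type} [Field L₀] [Algebra ℚ L₀] [FiniteDimensional ℚ L₀]
  [Algebra L₀ (AlgebraicClosure ℚ)] [IsScalarTower ℚ L₀ (AlgebraicClosure ℚ)]
  (AL : ValuationSubring L₀) (hAL : AL = B.comap (algebraMap L₀ (AlgebraicClosure ℚ)))

include hℓN hB hAL in
/-- The charts of level `N` reduce onto the charts of the special fibre. -/
theorem chartOnto_comapG [PerfectField (IsLocalRing.ResidueField AL)]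
    (hg : GenusBound ℓ N) (b : Bool) : ChartOnto AL ℓ N b := by
  haveI : Algebra.IsAlgebraic ℚ L₀ := Algebra.IsAlgebraic.of_finite ℚ L₀
  obtain ⟨h, κ, hκ⟩ := exists_residueEmbedding B AL hAL
  refine chartOnto_of_regular_lift
    (hasFullResidueDegree_of_embedding N hℓN B hB h (IsLocalRing.residue AL) κ) b
    fun x hx hreg => ?_
  have hlift := exists_regular_lift_of_liftG N hℓN B hB hg h κ hκ
    IsLocalRing.residue_surjective hx
  cases b with
  | false => exact hlift.1 hreg
  | true => exact hlift.2 hreg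

end X0Charts

end Fermat.Agent.Semistable.GenusHyp
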