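import Fermat.Agent.Semistable.GenusHyp.Descent
import Fermat.Agent.BadPrime.Mazur.Local.Toric
import Fermat.Agent.BadPrime.Mazur.Local.Residual

/-!
# Frobenius on the reduced part, and endomorphisms killing torsion, from a genus bound
-/

set_option autoImplicit false
set_option linter.style.haveILetI false
set_option linter.unusedSectionVars false
set_option synthInstance.maxHeartbeats 400000
set_option maxSynthPendingDepth 3
set_option maxHeartbeats 1000000

noncomputable section

namespace Fermat.Agent.Semistable.GenusHyp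

open AlgebraicCurve ModularCurve IsLocalRing IntermediateField Fermat.Agent.Curve Fermat.Agent.LevelP
  Fermat.Agent.LevelP.TwoCompData Fermat.Agent.Modular Fermat.Agent.Reduction Fermat.Agent.BadPrime
  Fermat.Agent.TwoAdic.Torus Fermat.Agent.BadPrime.Mazur.Local
open Fermat.Agent.EichlerShimura (bcHom coe_bcHom bcHom_algebraMap bcHom_injective)

local notation "Qb" => AlgebraicClosure ℚ
local notation "Γℚ" => (AlgebraicClosure ℚ ≃ₐ[ℚ] AlgebraicClosure ℚ)

local instance : Algebra.IsAlgebraic ℚ (AlgebraicClosure ℚ) := AlgebraicClosure.isAlgebraic ℚ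

section Descent

variable {q : ℕ} [Fact q.Prime] {M : ℕ} [NeZero M] {A : ValuationSubring Qb}

/-- `w ∘ φ` acts as the power `n q - q` on functions with residues `(1, 1)`. -/
theorem actsAsPower_swapFrobG (hA : A.LiesOverPrime q) (hbound : GenusBound q M)
    (hqM : ¬ q ∣ M) {w : FL (M * q) Qb →ₐ[Qb] FL (M * q) Qb} (hw : IsALInvolution w) {n : ℕ}
    (hn : ¬ q ∣ n) {φ : Qb ≃ₐ[ℚ] Qb} (hφ : A.IsFrobeniusAt φ q) :
    (gaussPair (IsLocalRing.residue A) M q w).ActsAsPower n (n * q - q)
      (SemilinearAut.ofAlgAut (alAlgEquiv hw) *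
        arithmeticGalois (modularFunctionFieldFull (M * q)) φ) := by
  intro g hres1 hord
  rw [gaussPair_res, OneMemClass.coe_one] at hres1
  obtain ⟨k₀, hk₀, hdesc⟩ := exists_descend (modularFunctionFieldFull (M * q)) g
  obtain ⟨k, hk, hfin, hgal⟩ := exists_isGalois_ge k₀
  obtain ⟨f, rfl⟩ := hdesc k hk
  haveI : NumberField k := { }
  haveI : Algebra.IsAlgebraic ℚ k := Algebra.IsAlgebraic.of_finite ℚ k
  set AL := A.comap (algebraMap k Qb) with hALdef
  have hAL : AL.LiesOverPrime q := liesOverPrime_of_le (L := k) A hA fun a ha => ha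
  haveI := isDiscreteValuationRing_place (Fact.out : q.Prime) hAL
  haveI := finite_residueField_place (Fact.out : q.Prime) hAL
  haveI : CharP (IsLocalRing.ResidueField AL) q := EC.charP_residueField AL Fact.out hAL
  obtain ⟨hA', κ, hκ⟩ := exists_residueEmbedding (L₀ := k) A AL hALdef
  let ι : k →+* ℂ :=
    (IsAlgClosed.lift (R := ℚ) (S := Qb) (M := ℂ)).toRingHom.comp (levelVal k).toRingHom
  obtain ⟨wL, hwL⟩ := exists_isALInvolution (L := k) (q := q) (M := M) ι hqM
  have hfd := hasFullResidueDegree_comap (L₀ := k) M hqM A hA AL hALdef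
  obtain ⟨ϖ, hϖ⟩ := IsDiscreteValuationRing.exists_irreducible AL
  have hA'' : ∀ a, a ∈ AL → (levelVal k : k →+* Qb) a ∈ A := fun a ha => ha
  have h1 : HasGaussRed (IsLocalRing.residue AL) (f : LaurentSeries k) 1 :=
    hasGaussRed_one_descend (levelVal k) hA'' κ (fun a => hκ a) hres1.1
  have h2 : HasGaussRed (IsLocalRing.residue AL) ((wL f : FL (M * q) k) : LaurentSeries k) 1 := by
    refine hasGaussRed_one_descend (levelVal k) hA'' κ (fun a => hκ a) ?_
    rw [bcHom_involution (levelVal k) hwL hw]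
    exact hres1.2
  have hres : ∀ a : AL, ∃ h : φ.restrictNormal k (a : k) ∈ AL,
      IsLocalRing.residue AL ⟨φ.restrictNormal k (a : k), h⟩ = IsLocalRing.residue AL a ^ q := by
    intro a
    obtain ⟨h, he⟩ := EC.residue_apply_eq_of_isFrobeniusAt A hφ
      (x := algebraMap k Qb (a : k)) a.2
    have hc : algebraMap k Qb (φ.restrictNormal k (a : k)) = φ (algebraMap k Qb (a : k)) :=
      φ.restrictNormal_commutes k (a : k)
    have hmem : φ.restrictNormal k (a : k) ∈ AL := by
      show algebraMap k Qb _ ∈ A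
      rw [hc]; exact h
    refine ⟨hmem, κ.injective ?_⟩
    rw [map_pow, ← hκ, ← hκ]
    refine Eq.trans (congrArg _ (Subtype.ext hc)) he
  have hstab : ∀ a ∈ AL, φ.restrictNormal k a ∈ AL := fun a ha => (hres ⟨a, ha⟩).1
  have hfrob : ∀ c : IsLocalRing.ResidueField AL,
      residueAut (φ.restrictNormal k) hstab c = c ^ q := by
    intro c
    obtain ⟨a, rfl⟩ := IsLocalRing.residue_surjective c
    rw [residueAut_residue]
    exact (hres a).2
  set S := SemilinearAut.ofAlgAut (alAlgEquiv hw) *
    arithmeticGalois (modularFunctionFieldFull (M * q)) φ with hSdef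
  have hsm := smul_bcHom (modularFunctionFieldFull (M * q)) k φ f
  set B := bcHom (modularFunctionFieldFull (M * q)) (levelVal k) with hB
  have hS : SemilinearAut.toRingAut S (B f) =
      B (wL (arithmeticRingAut (modularFunctionFieldFull (M * q)) (φ.restrictNormal k) f)) := by
    rw [hSdef, toRingAut_ofAlgAut_mul, hB, bcHom_involution (levelVal k) hwL hw]
    exact congrArg w hsm
  have hord2 := ord_dvd_level (k := k) (n := (n : ℤ))
    (f := wL (arithmeticRingAut (modularFunctionFieldFull (M * q)) (φ.restrictNormal k) f))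
    fun v => by
      rw [← hS]
      have h := SemilinearAut.ord_smul S (S⁻¹ • v) (B f)
      rw [smul_inv_smul] at h
      rw [show SemilinearAut.toRingAut S (B f) = S • B f from rfl, h]
      exact hord _
  haveI : CharZero k := charZero_of_injective_algebraMap (algebraMap ℚ k).injective
  obtain ⟨u, c, hu, huc⟩ := exists_pow_mul_eq_swapFrob ι hqM hwL hfd ϖ hϖ
    (fun b => chartOnto_comapG (L₀ := k) M hqM A hA AL hALdef hbound b) (φ.restrictNormal k) hstab hfrob
    hn h1 h2 (ord_dvd_level (n := (n : ℤ)) hord) hord2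
  have hn0 : n ≠ 0 := fun h => hn (by rw [h]; exact dvd_zero q)
  have hf0 : B f ≠ 0 := fun h0 => one_ne_zero (hres1.1.unique (by rw [h0]; exact hasGaussRed_zero))
  refine ⟨B u * B f ^ q, levelVal k c, mul_ne_zero ((map_ne_zero B).2 hu) (pow_ne_zero q hf0), ?_⟩
  have hnq : (B f ^ q) ^ n = B f ^ q * B f ^ (n * q - q) := by
    rw [← pow_mul, ← pow_add, mul_comm q n,
      Nat.add_sub_cancel' (Nat.le_mul_of_pos_left q (Nat.pos_of_ne_zero hn0))]
  rw [hS, mul_pow, hnq, ← bcHom_algebraMap, ← huc]
  simp only [map_mul, map_pow]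
  ring

end Descent

section Toric

variable {q M : ℕ} [Fact q.Prime] [NeZero M] {A : ValuationSubring Qb}
  [IsAlgClosed (ResidueField A)]

local notation "F" => modularFunctionFieldBar (M * q)
local notation "Fb" => modularFunctionFieldFullC (ResidueField A) M

/-- **The toric part.** On a reduced class `c • (φ x + q w x) = 0`. -/
theorem isRed_frobeniusG (TD : TwoCompData q A F Fb) {w : F →ₐ[Qb] F}
    (hswap : ∀ f, TD.swap f = w f)
    (hred : ∀ (f : F) (g : Fb), (∃ h : f ∈ TD.V false, TD.red false ⟨f, h⟩ = g) ↔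
      HasGaussRed (residue A) (f : LaurentSeries Qb) (g : LaurentSeries (ResidueField A)))
    (hA : A.LiesOverPrime q) (hbound : GenusBound q M) (hqM : ¬ q ∣ M)
    (hw : IsALInvolution w) (L : Level q A) {n c : ℕ} (hn : ¬ q ∣ n) {φ : Γℚ}
    (hφ : A.IsFrobeniusAt φ q) {x : JZero (M * q)} (hx : IsRed TD L n c x) :
    c • (φ • x + q • (SemilinearAut.ofAlgAut (alAlgEquiv hw) • x)) = 0 := by
  haveI := EC.charP_residueField A Fact.out hA
  haveI := Fermat.Agent.EichlerShimura.isFunctionField1_modularFunctionFieldBar (M * q)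
  have hn0 : n ≠ 0 := fun h => hn (by rw [h]; exact dvd_zero q)
  obtain ⟨f, hf, ⟨d, hd⟩, hres⟩ := hx
  obtain ⟨h0, hh0⟩ := hres false
  obtain ⟨h1, hh1⟩ := hres true
  set e0 := ordAt TD L false f
  set e1 := ordAt TD L true f
  have hv0 : TD.VOrd L.π false f e0 := vord_ordAt hf.ne_zero hf.fixed
  have hv1 : TD.VOrd L.π true f e1 := vord_ordAt hf.ne_zero hf.fixed
  have hr0 : HasGaussRed (residue A)
      ((algebraMap Qb F (L.π ^ (-e0)) * f : F) : LaurentSeries Qb)
      ((normRes TD L false f : Fb) : LaurentSeries (ResidueField A)) := by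
    rw [normRes_eq hv0]
    exact hasGaussRed_residueAt_false TD hred
      (TD.mem_of_valuation_eq_one (vord_normalised hv0).valuation_eq_one)
  have hr1 : HasGaussRed (residue A)
      ((algebraMap Qb F (L.π ^ (-e1)) * w f : F) : LaurentSeries Qb)
      ((normRes TD L true f : Fb) : LaurentSeries (ResidueField A)) := by
    have h := hasGaussRed_residueAt_true TD hswap hred
      (TD.mem_of_valuation_eq_one (vord_normalised hv1).valuation_eq_one)
    rw [map_mul, AlgHom.commutes, ← normRes_eq hv1] at h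
    exact h
  -- a function of the prescribed vertical slope
  obtain ⟨u, z, r, r', hu, hr, hr', hur, hzr, hwu⟩ :=
    exists_res_size (π := residue A) (w := w) hw.alpha hw.beta residue_surjective hA hw.invol
      (e := L.π ^ (-((c : ℤ) * d))) (zpow_ne_zero _ L.ne_zero)
  set g := algebraMap Qb F (L.π ^ (-e0)) ^ c * u ^ n * f ^ c with hg
  have hg0 : HasGaussRed (residue A) (g : LaurentSeries Qb)
      (r ^ n * ((normRes TD L false f : Fb) : LaurentSeries (ResidueField A)) ^ c) := by
    have h := (hur.pow n).mul (hr0.pow c)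
    rw [← IntermediateField.coe_pow, ← IntermediateField.coe_pow, ← IntermediateField.coe_mul] at h
    rwa [show g = u ^ n * (algebraMap Qb F (L.π ^ (-e0)) * f) ^ c by rw [hg]; ring]
  have hg1 : HasGaussRed (residue A) ((w g : F) : LaurentSeries Qb)
      (r' ^ n * ((normRes TD L true f : Fb) : LaurentSeries (ResidueField A)) ^ c) := by
    have hsc : (L.π ^ (-e0)) ^ c * (L.π ^ (-((c : ℤ) * d))) ^ n = (L.π ^ (-e1)) ^ c := by
      simp only [← zpow_natCast (G := Qb), ← zpow_mul, ← zpow_add₀ L.ne_zero]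
      have : e1 - e0 = n * d := hd
      congr 1
      rw [show e1 = e0 + n * d by omega]
      ring
    have hwg : w g = z ^ n * (algebraMap Qb F (L.π ^ (-e1)) * w f) ^ c := by
      rw [hg, map_mul, map_mul, map_pow, map_pow, map_pow, AlgHom.commutes, hwu]
      have := congrArg (algebraMap Qb F) hsc
      simp only [map_mul, map_pow] at this
      linear_combination (z ^ n * (w f) ^ c) * this
    have h := (hzr.pow n).mul (hr1.pow c)
    rw [← IntermediateField.coe_pow, ← IntermediateField.coe_pow, ← IntermediateField.coe_mul] at h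
    rwa [hwg]
  have he0 : L.π ^ (-((c : ℤ) * d)) ≠ 0 := zpow_ne_zero _ L.ne_zero
  have hrmem : r ∈ Fb := residue_mem_of_size hA hqM hw hwu hr hr' hur hzr
  have hr'mem : r' ∈ Fb := by
    refine residue_mem_of_size hA hqM hw (e := (L.π ^ (-((c : ℤ) * d)))⁻¹) ?_ hr' hr hzr hur
    have h := congrArg w hwu
    rw [hw.invol, map_mul, AlgHom.commutes] at h
    rw [h, ← mul_assoc, ← map_mul, inv_mul_cancel₀ he0, map_one, one_mul]
  have hlift : ∀ (s : LaurentSeries (ResidueField A)) (N : Fb) (h : Fb), s ∈ Fb → s ≠ 0 →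
      N ≠ 0 → h ^ n = N ^ c →
      ∃ a : Fb, a ≠ 0 ∧ (a : LaurentSeries (ResidueField A)) ^ n *
        (s ^ n * (N : LaurentSeries (ResidueField A)) ^ c) = 1 := by
    intro s N h hs hs0 hN hh
    set t : Fb := ⟨s, hs⟩ * h
    have ht : t ≠ 0 := by
      refine mul_ne_zero (fun h0 => hs0 (congrArg Subtype.val h0)) fun h0 => ?_
      rw [h0, zero_pow hn0] at hh
      exact pow_ne_zero c hN hh.symm
    refine ⟨t⁻¹, inv_ne_zero ht, ?_⟩
    have e : t ^ n = ⟨s, hs⟩ ^ n * N ^ c := by rw [mul_pow, hh]
    rw [← IntermediateField.coe_pow, inv_pow, IntermediateField.coe_inv,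
      show s ^ n * (N : LaurentSeries (ResidueField A)) ^ c = ((t ^ n : Fb) : LaurentSeries _) by
        rw [e]; simp]
    exact inv_mul_cancel₀ fun h0 => pow_ne_zero n ht (Subtype.ext h0)
  obtain ⟨a0, ha0, ha0'⟩ := hlift r _ h0 hrmem hr (normRes_ne_zero hv0) hh0
  obtain ⟨a1, ha1, ha1'⟩ := hlift r' _ h1 hr'mem hr' (normRes_ne_zero hv1) hh1
  obtain ⟨v, hv⟩ := exists_res (π := residue A) (w := w) hw.alpha hw.beta residue_surjective
    hw.invol a0 a1
  rw [gaussPair_res] at hv
  have hv0' : v ≠ 0 := fun h => ha0 (Subtype.ext (hv.1.unique (by rw [h]; exact hasGaussRed_zero)))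
  -- the normalised Kummer function of `c • x`
  set G := algebraMap Qb F ((L.π ^ (-e0)) ^ c) * (u * v) ^ n * f ^ c with hG
  have hGg : G = g * v ^ n := by rw [hG, hg, map_pow, mul_pow]; ring
  have hK : IsKummerFun n (c • x) G :=
    ((hf.pow c).isKummerFun).const_mul_pow (pow_ne_zero _ (zpow_ne_zero _ L.ne_zero))
      (mul_ne_zero hu hv0')
  have hres1 : (gaussPair (residue A) M q w).Res G 1 1 := by
    rw [gaussPair_res, OneMemClass.coe_one, hGg]
    refine ⟨?_, ?_⟩
    · have h := hg0.mul (hv.1.pow n)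
      rw [mul_comm (r ^ n * _), ha0'] at h
      rwa [IntermediateField.coe_mul, IntermediateField.coe_pow]
    · have h := hg1.mul (hv.2.pow n)
      rw [mul_comm (r' ^ n * _), ha1'] at h
      rwa [map_mul, map_pow, IntermediateField.coe_mul, IntermediateField.coe_pow]
  obtain ⟨-, D, hD, hDG⟩ := hK
  have hcore := PairResidue.smul_eq_nsmul (gaussPair (residue A) M q w) hn0
    (actsAsPower_swapFrobG hA hbound hqM hw hn hφ) hres1 hDG
  rw [hD, mul_smul] at hcore
  -- conclude
  set W := SemilinearAut.ofAlgAut (alAlgEquiv hw) with hW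
  set y := c • x with hy
  have hWW : ∀ z : JZero (M * q), W • W • z = z := fun z => by
    have e : alAlgEquiv hw * alAlgEquiv hw = 1 := AlgEquiv.ext fun v => hw.invol v
    rw [smul_smul, hW, ← map_mul, e, map_one, one_smul]
  have hny : n • y = 0 := by rw [hy, smul_comm, nsmul_eq_zero_of_isKummerFun hf.isKummerFun, smul_zero]
  have hm : (n * q - q) • y + q • y = 0 := by
    rw [← add_nsmul, Nat.sub_add_cancel (Nat.le_mul_of_pos_left q (Nat.pos_of_ne_zero hn0)),
      mul_nsmul, hny, smul_zero]
  have hWs : ∀ (k : ℕ) (z : JZero (M * q)), W • (k • z) = k • (W • z) := fun k z =>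
    map_nsmul (DistribSMul.toAddMonoidHom (JZero (M * q)) W) k z
  have hphi : φ • y = (n * q - q) • (W • y) := by
    rw [← hWs, ← hcore, hWW]
    rfl
  have hcomm : c • (φ • x) = φ • y :=
    (map_nsmul (DistribSMul.toAddMonoidHom (JZero (M * q)) φ) c x).symm
  rw [nsmul_add, hcomm, smul_comm c q, ← hWs c, ← hy, hphi, ← hWs, ← hWs, ← smul_add, hm,
    smul_zero]

end Toric

section Residual

variable {q : ℕ} [Fact q.Prime] {M : ℕ} [NeZero M] (hqM : ¬ q ∣ M) {A : ValuationSubring Qb}
  (hA : A.LiesOverPrime q)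

include hqM hA in
/-- **The place reduction at level `M`.** -/
theorem exists_gaussPlaceMapG (hg : GenusBound q M) :
    ∃ r : Place Qb (modularFunctionFieldBar M) →
        Place (ResidueField A) (modularFunctionFieldFullC (ResidueField A) M),
      IsPlaceReductionModL A M r ∧ IsGaussPlaceMap M A r ∧ Function.Surjective r := by
  classical
  have := EC.isAlgClosed_residueField A
  obtain ⟨r, hdeg, hr⟩ := (gaussDataX0 M hqM A hA).exists_placeCompat
    (hg A hA)
  refine ⟨r, isPlaceReductionAlong_of_modGraph hdeg hr, fun f g h hg0 => hr f g h hg0, fun Q => ?_⟩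
  by_contra hQ
  obtain ⟨t, ht0, ht⟩ := exists_uniformizer Q
  obtain ⟨f, hf⟩ := (gaussDataX0 M hqM A hA).exists_lift t
  have h := hr f t hf ht0 (divisorOf f) (fun P => divisorOf_apply f P) Q
  rw [Finsupp.mapDomain_notin_range _ _ (fun ⟨P, hP⟩ => hQ ⟨P, hP⟩), ht] at h
  exact zero_ne_one h


include hqM hA in
/-- **An endomorphism killing torsion has no torsion values on the special fibre.** -/
theorem reductionModL_eq_zero_of_nsmulG (hg : GenusBound q M) {φ : Γℚ} (hφ : A.IsFrobeniusAt φ q)
    (T : JZero M →+ JZero M) (hTσ : ∀ (σ : Γℚ) x, σ • T x = T (σ • x))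
    (hT : ∀ x : JZero M, IsOfFinAddOrder x → T x = 0) {n : ℕ} (hn : n ≠ 0) (y : JZero M)
    (hy : n • reductionModL A M (T y) = 0) : reductionModL A M (T y) = 0 := by
  classical
  have := EC.isAlgClosed_residueField A
  have : CharP (ResidueField A) q := EC.charP_residueField A (Fact.out : q.Prime) hA
  have : PerfectRing (ResidueField A) q := PerfectField.toPerfectRing q
  obtain ⟨r, hr, -, -⟩ := exists_gaussPlaceMapG hqM hA hg
  have hin : ReductionInputsModL A M := ⟨r, hr, principalGeneratedByIntegral M hqM A hA⟩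
  set fr := frobeniusEquiv (ResidueField A) q
  have hfr : ∀ a, fr a = a ^ q := fun a => frobeniusEquiv_def _ _ a
  obtain ⟨E, hE, hfix⟩ := EichlerShimura.galoisFiniteLevel M y
  let E' := IntermediateField.normalClosure ℚ E Qb
  have : FiniteDimensional ℚ E := hE
  have : Normal ℚ Qb := normal_iff.2 fun a => ⟨(AlgebraicClosure.isAlgebraic ℚ).isAlgebraic a |>.isIntegral, IsAlgClosed.splits _⟩
  have : Normal ℚ E' := normalClosure.normal ℚ E Qb
  set d := Nat.card (E' ≃ₐ[ℚ] E') with hddef
  have hd : 0 < d := Nat.card_pos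
  have hφy : (φ ^ d) • y = y := by
    refine hfix _ fun a ha => ?_
    have h1 : AlgEquiv.restrictNormalHom E' (φ ^ d) = 1 := by
      rw [map_pow, hddef, pow_card_eq_one']
    have h2 := AlgEquiv.restrictNormal_commutes (φ ^ d) E' ⟨a, IntermediateField.le_normalClosure E ha⟩
    rw [show (φ ^ d).restrictNormal E' = 1 from h1] at h2
    exact h2.symm
  choose ys hys using fun k : ℕ => exists_nsmul_eq M (pow_ne_zero k hn) y
  have hfixk : ∀ k, (φ ^ d) • T (ys k) = T (ys k) := by
    intro k
    rw [hTσ, ← sub_eq_zero, ← map_sub]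
    refine hT _ (isOfFinAddOrder_iff_nsmul_eq_zero.2
      ⟨n ^ k, pow_pos (Nat.pos_of_ne_zero hn) k, ?_⟩)
    rw [nsmul_sub, hys, show n ^ k • ((φ ^ d) • ys k) = (φ ^ d) • (n ^ k • ys k) from
      (map_nsmul (DistribSMul.toAddMonoidHom (JZero M) (φ ^ d)) (n ^ k) (ys k)).symm, hys, hφy,
      sub_self]
  refine eq_zero_of_divisible (finite_fixed_frobenius hA fr hfr hd) _
    (fun k => reductionModL A M (T (ys k))) (fun k => ?_) (fun k => ?_) hy
  · show _ = _
    rw [← reductionModL_pow_smul hin hφ fr hfr, hfixk]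
  · rw [← map_nsmul, ← map_nsmul, hys]

end Residual

end Fermat.Agent.Semistable.GenusHyp
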