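import Fermat.Agent.Semistable.GenusHyp.Charts
import Fermat.Agent.Semistable.GenusHyp.Reduced
import Fermat.Agent.BadPrime.Mazur.Local.Main

/-!
# The local inputs of Mazur's principle from a genus bound

`LocalInputs q p M` for `p ≥ 5` at every prime `q ∤ M` at which the genus of `X₀(M)` is preserved.
-/

set_option autoImplicit false
set_option linter.style.haveILetI false
set_option linter.unusedSectionVars false
set_option synthInstance.maxHeartbeats 400000
set_option maxSynthPendingDepth 3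
set_option maxHeartbeats 1000000

noncomputable section

open HahnSeries ModularCurve AlgebraicCurve IsLocalRing MvPolynomial

namespace Fermat.Agent.Semistable.GenusHyp

open Fermat.Agent.Curve Fermat.Agent.BadPrime Fermat.Agent.LevelP Fermat.Agent.LevelP.TwoCompData
  Fermat.Agent.BadPrime.Mazur Fermat.Agent.BadPrime.Mazur.Local

local notation "Qb" => AlgebraicClosure ℚ
local notation "Γℚ" => (AlgebraicClosure ℚ ≃ₐ[ℚ] AlgebraicClosure ℚ)

local instance : Algebra.IsAlgebraic ℚ Qb := AlgebraicClosure.isAlgebraic ℚ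

section Classes

variable {q : ℕ} [Fact q.Prime] {M : ℕ} [NeZero M] {A : ValuationSubring Qb}
  [IsFunctionField1 Qb (modularFunctionFieldBar (M * q))]
  [IsAlgClosed (ResidueField A)]
  [IsFunctionField1 (ResidueField A) (modularFunctionFieldFullC (ResidueField A) M)]
  {T : TwoCompData q A (modularFunctionFieldBar (M * q))
    (modularFunctionFieldFullC (ResidueField A) M)} (hT : IsX0Data T) {L : Level q A}
  {n c : ℕ} (hbound : GenusBound q M)

include hT hbound in
/-- Divisor classes of the special fibre lift. -/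
theorem exists_reductionModL_eqG (z : JZeroC (ResidueField A) M) :
    ∃ z₀ : JZero M, reductionModL A M z₀ = z := by
  classical
  obtain ⟨r, hr, -, hsurj⟩ := exists_gaussPlaceMapG hT.not_dvd hT.liesOver hbound
  obtain ⟨g, hg⟩ := hsurj.hasRightInverse
  obtain ⟨E, rfl⟩ := Pic0.mk_surjective z
  set D := Finsupp.mapDomain g (E : Divisor (ResidueField A) _) with hDdef
  have hrD : Finsupp.mapDomain r D = E := by
    rw [hDdef, ← Finsupp.mapDomain_comp, hg.comp_eq_id, Finsupp.mapDomain_id]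
  have hdeg : Divisor.degree D = 0 := by
    rw [← degree_mapDomain_of_deg_eq hr.1, hrD]
    exact Divisor.mem_degZero.1 E.2
  refine ⟨Pic0.mk ⟨D, Divisor.mem_degZero.2 hdeg⟩, ?_⟩
  rw [reductionModL_mk_eq hT.not_dvd hT.liesOver hr]
  exact congrArg Pic0.mk (Subtype.ext hrD)

include hT hbound in
/-- **The residual classes commute with `T_ℓ`.** -/
theorem isResClass_heckeG {ℓ : Nat.Primes} (hℓ : ¬ (ℓ : ℕ) ∣ M * q) {i : Bool}
    {x : JZero (M * q)} {z₀ : JZero M}
    (hx : IsResClass T L n c i x (reductionModL A M z₀)) :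
    IsResClass T L n c i (heckeOperatorBar (M * q) ℓ x)
      (reductionModL A M (heckeOperatorBar M ℓ z₀)) := by
  have : NeZero (ℓ : ℕ) := ⟨ℓ.2.ne_zero⟩
  obtain ⟨r, hr, hr', -⟩ := exists_gaussPlaceMapG hT.not_dvd hT.liesOver hbound
  obtain ⟨u, hu⟩ := exists_rootUnit A ℓ.2
  have hℓM : ¬ (ℓ : ℕ) ∣ M := fun hd => hℓ (hd.mul_right q)
  obtain ⟨f, hf, E, hE, hEz⟩ := hx
  obtain ⟨D, rfl⟩ := Pic0.mk_surjective z₀
  rw [reductionModL_mk_eq hT.not_dvd hT.liesOver hr, eq_comm, ← sub_eq_zero, ← pic0Mk_sub] at hEz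
  obtain ⟨v, hv, hDv⟩ := (pic0Mk_eq_zero_iff _).1 hEz
  obtain ⟨φ, hφ⟩ := (Reduction.gaussDataX0 M hT.not_dvd A hT.liesOver).exists_lift v
  have hv' : (v : LaurentSeries (ResidueField A)) ≠ 0 := fun h0 => hv (Subtype.ext h0)
  obtain ⟨v₁, hv₁, -, hvN⟩ :=
    exists_residual_heckeNorm hT.not_dvd hT.liesOver ℓ.2 hℓM u hu (f := φ) hφ hv'
  set g := normRes T L i f with hg
  set g₁ := normRes T L i (heckeNorm (M * q) (ℓ : ℕ) f) with hg₁
  have hgne : g ≠ 0 := normRes_ne_zero' hf.ne_zero hf.fixed i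
  have hg₁ne : g₁ ≠ 0 := normRes_ne_zero'
    (heckeNorm_ne_zero _ _ (finiteAlong _) hf.ne_zero) (hT.fixed_heckeNorm hf.fixed) i
  have hN : IsResNorm (ℓ : ℕ) (Units.map (residue A).toMonoidHom u)
      ((g ^ c * v ^ n : modularFunctionFieldFullC (ResidueField A) M) :
        LaurentSeries (ResidueField A))
      ((g₁ ^ c * v₁ ^ n : modularFunctionFieldFullC (ResidueField A) M) :
        LaurentSeries (ResidueField A)) := by
    push_cast
    exact ((hT.heckeNorm_local ℓ.2 hℓ u hu hf.ne_zero hf.fixed i).2.pow c).mul (hvN.pow n)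
  have hrD : ∀ Q, Finsupp.mapDomain r ((n : ℤ) • (D : Divisor Qb _)) Q = Q.ord (g ^ c * v ^ n) := by
    intro Q
    rw [Finsupp.mapDomain_smul, Finsupp.smul_apply, smul_eq_mul,
      Q.ord_mul (pow_ne_zero c hgne) (pow_ne_zero n hv), Curve.ord_pow, Curve.ord_pow, ← hE Q,
      ← hDv Q, AddSubgroupClass.coe_sub, Finsupp.sub_apply, coe_reductionDegZeroAlong]
    ring
  have hdeg : Divisor.degree ((n : ℤ) • (D : Divisor Qb (modularFunctionFieldBar M))) = 0 := by
    rw [map_zsmul, Divisor.mem_degZero.1 D.2, smul_zero]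
  have hmain := mapDomain_heckeDiv hT.not_dvd hT.liesOver hr' ℓ.2 hℓM u hu hdeg
    (mul_ne_zero (pow_ne_zero c hgne) (pow_ne_zero n hv)) hrD hN
  obtain ⟨E₁, hE₁, hE₁'⟩ := HasPrincipalDivisors.exists_divisor (K := ResidueField A) v₁ hv₁
  refine ⟨heckeNorm (M * q) (ℓ : ℕ) f, hT.kummer_heckeNorm ℓ.2 hf,
    reductionDegZeroAlong r hr.1 ⟨heckeDiv M ℓ D, heckeDiv_mem_degZero M ℓ D.2⟩ -
      ⟨E₁, Divisor.mem_degZero.2 hE₁'⟩, fun Q => ?_, ?_⟩
  · have h := hmain Q
    rw [map_zsmul, Finsupp.mapDomain_smul, Finsupp.smul_apply, smul_eq_mul,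
      Q.ord_mul (pow_ne_zero c hg₁ne) (pow_ne_zero n hv₁), Curve.ord_pow, Curve.ord_pow] at h
    rw [AddSubgroupClass.coe_sub, Finsupp.sub_apply, coe_reductionDegZeroAlong, mul_sub, h, hE₁]
    ring
  · rw [pic0Mk_sub, (pic0Mk_eq_zero_iff ⟨E₁, Divisor.mem_degZero.2 hE₁'⟩).2 ⟨v₁, hv₁, hE₁⟩,
      sub_zero, ← reductionModL_mk_eq hT.not_dvd hT.liesOver hr]
    exact congrArg _ (heckeOperatorBar_mk M (ℓ : ℕ) ℓ.2 D).symm

variable [NeZero n] (hD : HasResDiv T L n c)

include hT hbound in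
/-- **The residual classes of a translate, read through lifts.** -/
theorem resHom_heckeG (ℓ : Nat.Primes) (hℓ : ¬ (ℓ : ℕ) ∣ M * q) (i : Bool)
    (x y : (slopeHom T L n).ker)
    (hy : ((y : fixedClasses T L n) : JZero (M * q)) =
      heckeOperatorBar (M * q) ℓ ((x : fixedClasses T L n) : JZero (M * q)))
    (z : JZero M) (hz : reductionModL A M z = resHom hD i x) :
    resHom hD i y = reductionModL A M (heckeOperatorBar M ℓ z) := by
  refine (isResClass_resHom hD i y).unique (NeZero.ne n) ?_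
  rw [hy]
  exact isResClass_heckeG hT hbound hℓ (hz ▸ isResClass_resHom hD i x)

include hT hbound in
/-- Polynomials in the Hecke operators act on residual classes through lifts. -/
theorem resHom_evalJG (i : Bool) (t : MvPolynomial (GoodPrimes (M * q)) ℤ) :
    ∀ (x : (slopeHom T L n).ker) (z : JZero M), reductionModL A M z = resHom hD i x →
      ∃ y : (slopeHom T L n).ker, ((y : fixedClasses T L n) : JZero (M * q)) =
          evalJ (M * q) t ((x : fixedClasses T L n) : JZero (M * q)) ∧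
        resHom hD i y = reductionModL A M (evalJLow M (M * q) t z) := by
  induction t using MvPolynomial.induction_on with
  | C a =>
    intro x z hz
    refine ⟨a • x, ?_, ?_⟩
    · exact ker_coe_zsmul x a (evalJ_C_apply (M * q) a _)
    · exact resHom_zsmul_eq hD i (reductionModL A M) a hz (evalJLow_C_apply (M * q) a z)
  | add a b ha hb =>
    intro x z hz
    obtain ⟨y, hy, hy'⟩ := ha x z hz
    obtain ⟨y₂, hy₂, hy₂'⟩ := hb x z hz
    refine ⟨y + y₂, ?_, ?_⟩
    · exact ker_coe_add y y₂ hy hy₂ (evalJ_add_apply (M * q) a b _)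
    · exact resHom_add_eq hD i (reductionModL A M) hy' hy₂' (evalJLow_add_apply (M * q) a b z)
  | mul_X a ℓ ha =>
    intro x z hz
    have h1 := hT.mem_fixedClasses_hecke ℓ.1 (x : fixedClasses T L n).2
    have h2 : slopeHom T L n ⟨_, h1⟩ = 0 := by
      rw [hT.slopeHom_hecke ℓ.1 ℓ.2 (x : fixedClasses T L n) ⟨_, h1⟩ rfl,
        show slopeHom T L n (x : fixedClasses T L n) = 0 from x.2, mul_zero]
    let x₁ : fixedClasses T L n := ⟨_, h1⟩
    let x₂ : (slopeHom T L n).ker := ⟨x₁, AddMonoidHom.mem_ker.2 h2⟩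
    have hx₂ : ((x₂ : fixedClasses T L n) : JZero (M * q)) =
        heckeOperatorBar (M * q) ℓ.1 ((x : fixedClasses T L n) : JZero (M * q)) := rfl
    have h3 := resHom_heckeG hT hbound hD ℓ.1 ℓ.2 i x x₂ hx₂ z hz
    have h4 := ha x₂ (heckeOperatorBar M ℓ.1 z)
    have h5 := h4 (Eq.symm h3)
    obtain ⟨y, hy, hy'⟩ := h5
    refine ⟨y, hy.trans ?_, hy'.trans ?_⟩
    · rw [map_mul, evalJ_X]; rfl
    · rw [map_mul, evalJLow_X]; rfl

include hT hbound hD in
/-- **Polynomials vanishing at level `M` map slope zero into the reduced part.** -/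
theorem evalJ_mem_redClassesG {φ : Γℚ} (hφ : A.IsFrobeniusAt φ q)
    {t : MvPolynomial (GoodPrimes (M * q)) ℤ} (ht : evalS (M := M) (dvd_mul_right M q) t = 0)
    (x : fixedClasses T L n) (hx : slopeHom T L n x = 0) :
    evalJ (M * q) t (x : JZero (M * q)) ∈ redClasses T L n c := by
  have key : ∀ i, ∃ y : (slopeHom T L n).ker,
      ((y : fixedClasses T L n) : JZero (M * q)) = evalJ (M * q) t (x : JZero (M * q)) ∧
        resHom hD i y = 0 := by
    intro i
    obtain ⟨z, hz⟩ := exists_reductionModL_eqG hT hbound (resHom hD i ⟨x, hx⟩)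
    obtain ⟨y, hy, hy'⟩ := resHom_evalJG hT hbound hD i t ⟨x, hx⟩ z hz
    refine ⟨y, hy, ?_⟩
    rw [hy']
    refine reductionModL_eq_zero_of_nsmulG hT.not_dvd hT.liesOver hbound hφ
      (evalJLow M (M * q) t).toAddMonoidHom (fun σ w => galois_smul_evalJLow σ t w)
      (fun w hw => evalJLow_eq_zero_of_evalS (dvd_mul_right M q) ht hw) (NeZero.ne n) z ?_
    show n • reductionModL A M (evalJLow M (M * q) t z) = 0
    rw [← hy']
    exact (isResClass_resHom hD i y).nsmul_eq_zero
  obtain ⟨y, hy, hy'⟩ := key false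
  obtain ⟨y₂, hy₂, hy₂'⟩ := key true
  obtain rfl : y = y₂ := Subtype.ext (Subtype.ext (hy.trans hy₂.symm))
  rw [← hy]
  exact mem_redClasses_of_resHom_eq_zero hD y fun i => by cases i <;> assumption

end Classes

section Data

variable {q M : ℕ} [Fact q.Prime] [NeZero M] {A : ValuationSubring Qb}

/-- The data of `X0.exists_twoCompData'`, with the thickness of the nodes left to the caller. -/
theorem exists_isX0DataG (hg : GenusBound q M) (hqM : ¬ q ∣ M)
    (hA : A.LiesOverPrime q) [IsAlgClosed (ResidueField A)] :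
    ∃ T : TwoCompData q A (modularFunctionFieldBar (M * q))
        (modularFunctionFieldFullC (ResidueField A) M),
      IsX0Data T ∧ (T.w : LaurentSeries Qb) = (X0.wSeries q Qb : LaurentSeries Qb) ∧
        ∀ y, T.On y false → T.IsNode y → 0 ≤ (T.loc y false).ord (X0.jResM A M) := by
  obtain ⟨T, hact, hswap, hred, -, hnode, hw⟩ := exists_twoCompDataG A q M hg hqM hA
  exact ⟨T, ⟨hqM, hA, hact, hswap, hred⟩, hw, fun y hy hn => (hnode y hy).1 hn⟩

end Data

variable {q M n c : ℕ} [Fact q.Prime] [NeZero M] [NeZero (M * q)] [NeZero n]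

/-- The local inputs, given the thickness of the nodes. -/
theorem localInputsMod_ofG {m : ℕ} (hbound : GenusBound q M) (hqM : ¬ q ∣ M)
    (hn : ¬ q ∣ n) (hcm : c * m = 12)
    (hm : ∀ (A : ValuationSubring Qb), A.LiesOverPrime q → ∀ [IsAlgClosed (ResidueField A)]
      (T : TwoCompData q A (modularFunctionFieldBar (M * q))
        (modularFunctionFieldFullC (ResidueField A) M)), IsX0Data T →
      (T.w : LaurentSeries Qb) = (X0.wSeries q Qb : LaurentSeries Qb) →
      (∀ y, T.On y false → T.IsNode y → 0 ≤ (T.loc y false).ord (X0.jResM A M)) →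
      ∀ y, T.IsNode y → m ∣ T.r y) :
    LocalInputsMod q n c M := by
  obtain ⟨A₀, hA₀⟩ := Galois.exists_valuationSubring_liesOverPrime (L := Qb) (Fact.out : q.Prime)
  have hcl₀ : IsAlgClosed (ResidueField A₀) := EC.isAlgClosed_residueField A₀
  obtain ⟨T₀, hT₀, -, -⟩ := exists_isX0DataG hbound hqM hA₀
  refine ⟨swapJ q M, swapJ_swapJ hqM, hT₀.smul_swapJ, heckeOperatorBar_swapJ hqM,
    fun K _ _ hI A hA φ hφ => ?_⟩
  have : IsAlgClosed (ResidueField A) := EC.isAlgClosed_residueField A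
  have : IsFunctionField1 Qb (modularFunctionFieldBar (M * q)) :=
    X0.isFunctionField1_mul_prime q M
  have : IsFunctionField1 (ResidueField A) (modularFunctionFieldFullC (ResidueField A) M) :=
    X0.isFunctionField1_fullC_X0 A M
  obtain ⟨T, hT, hw, hj⟩ := exists_isX0DataG hbound hqM hA
  set L := unramifiedLevel (Fact.out : q.Prime) hT.liesOver
  have hD : HasResDiv T L n c := hasResDiv_of_e_eq_one T L n c (Fact.out : q.Prime) (NeZero.ne n)
    hT.swap_swap rfl hcm (hm A hA T hT hw hj)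
  have hle : fixedTorsion (M * q) n K ≤ fixedClasses T L n :=
    hT.fixedTorsion_le fun τ hτ => hI A hA τ hτ
  refine ⟨(slopeHom T L n).comp (AddSubgroup.inclusion hle), redClasses T L n c,
    fun ℓ hℓ x y hy => hT.slopeHom_hecke ℓ hℓ ⟨x, hle x.2⟩ ⟨y, hle y.2⟩ hy,
    fun t ht x hx => evalJ_mem_redClassesG hT hbound hD hφ ht ⟨x, hle x.2⟩ hx,
    fun x _ hx => ?_⟩
  have h := isRed_frobeniusG T (w := (X0.swap q M : modularFunctionFieldBar (M * q) →ₐ[Qb] _))
    (fun f => by rw [hT.swap_eq]; rfl) hT.red_iff hA hbound hqM (isALInvolution_swap hqM) L hn hφ hx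
  have e : Fermat.Agent.TwoAdic.Torus.alAlgEquiv (isALInvolution_swap (M := M) hqM) =
      X0.swap q M := AlgEquiv.ext fun _ => rfl
  rw [e] at h
  exact h

omit [NeZero n] in
/-- The inputs of Mazur's principle for a prime `p ≥ 5`, from the genus bound. -/
theorem localInputs_of_genusBound {p : ℕ} (hp : p.Prime) (hp5 : 5 ≤ p) (hpq : p ≠ q)
    (hqM : ¬ q ∣ M) (hg : GenusBound q M) : LocalInputs q p M :=
  have : NeZero p := ⟨hp.ne_zero⟩
  LocalInputsMod.localInputs
    ((Nat.Coprime.symm ((Nat.Prime.coprime_iff_not_dvd hp).2 fun h => by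
      rcases (Nat.Prime.dvd_mul hp).1 (show p ∣ 2 ^ 2 * 3 from h) with h | h
      · have := Nat.le_of_dvd two_pos (hp.dvd_of_dvd_pow h)
        omega
      · have := Nat.le_of_dvd three_pos h
        omega)))
    (localInputsMod_ofG (n := p) (c := 12) (m := 1) hg hqM
      (fun h => hpq ((Nat.prime_dvd_prime_iff_eq Fact.out hp).1 h).symm) rfl
      fun _ _ _ _ _ _ _ _ _ => one_dvd _)

end Fermat.Agent.Semistable.GenusHyp
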